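/-
Lib / LaurentSubst / WIP (helper227): STATEMENTS of the files still to come
(`Order.lean`, `Scale.lean`, `Root.lean`), same namespace and same names as the final files.
Already landed and proved: `Theta.lean` (theta, dL), `Subst.lean` (substL, chain rule),
`ResCore.lean`, `ResInv.lean` (residue invariance).  Never import this file from a final file.
-/
import Fermat.Agent.Lib.LaurentSubst.ResInv

set_option autoImplicit false

namespace Fermat.Agent.Lib.LaurentSubst.WIP

open PowerSeries Fermat.Agent.Lib.LaurentSubst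

section Theta
variable {R : Type*} [CommRing R]

theorem theta_C (c : R) : theta (HahnSeries.C c : LaurentSeries R) = 0 := sorry

theorem theta_pow_char (p : ℕ) [CharP R p] (f : LaurentSeries R) : theta (f ^ p) = 0 := sorry

/-- `t ↦ z t` -/
noncomputable def scale (z : Rˣ) : LaurentSeries R →+* LaurentSeries R := sorry

theorem coeff_scale (z : Rˣ) (f : LaurentSeries R) (n : ℤ) :
    (scale z f).coeff n = ((z ^ n : Rˣ) : R) * f.coeff n := sorry

theorem scale_single (z : Rˣ) (n : ℤ) (c : R) :
    scale z (HahnSeries.single n c) = HahnSeries.single n (((z ^ n : Rˣ) : R) * c) := sorry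

theorem scale_C (z : Rˣ) (c : R) : scale z (HahnSeries.C c) = HahnSeries.C c := sorry

theorem scale_one (f : LaurentSeries R) : scale 1 f = f := sorry

theorem scale_mul (z w : Rˣ) (f : LaurentSeries R) : scale (z * w) f = scale z (scale w f) := sorry

theorem theta_scale (z : Rˣ) (f : LaurentSeries R) : theta (scale z f) = scale z (theta f) := sorry

end Theta

variable {k : Type*} [Field k]

/-- the sum over the `r`-th roots of unity picks the coefficients with `r ∣ n` -/
theorem coeff_sum_scale {r : ℕ} (hr : 0 < r) {ζ : kˣ} (hζ : IsPrimitiveRoot ζ r)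
    (f : LaurentSeries k) (n : ℤ) :
    (∑ i ∈ Finset.range r, scale (ζ ^ i) f).coeff n =
      if (r : ℤ) ∣ n then (r : k) * f.coeff n else 0 := sorry

/-- if `f` has order `± 1` (more generally `f.coeff n ≠ 0` with `z ^ n ≠ 1`), `scale z` moves it -/
theorem scale_ne_self {z : kˣ} {f : LaurentSeries k} {n : ℤ} (hn : f.coeff n ≠ 0)
    (hz : z ^ n ≠ 1) : scale z f ≠ f := sorry

variable (ρ : k⟦X⟧) (h0 : constantCoeff ρ = 0) (hne : ρ ≠ 0)

theorem order_substL (h1 : coeff 1 ρ ≠ 0) (G : LaurentSeries k) :
    (substL ρ h0 hne G).order = G.order := sorry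

theorem leadingCoeff_substL (h1 : coeff 1 ρ ≠ 0) (G : LaurentSeries k) :
    (substL ρ h0 hne G).leadingCoeff = G.leadingCoeff * (coeff 1 ρ) ^ G.order := sorry

/-- (L4) -/
theorem exists_substL_eq_single [IsAlgClosed k] (x : LaurentSeries k) (r : ℕ) (hr : 0 < r)
    (hrk : (r : k) ≠ 0) (hx : x.order = -(r : ℤ)) :
    ∃ (ρ : k⟦X⟧) (h0 : constantCoeff ρ = 0) (hne : ρ ≠ 0), coeff 1 ρ ≠ 0 ∧
      substL ρ h0 hne x = HahnSeries.single (-(r : ℤ)) 1 := sorry

end Fermat.Agent.Lib.LaurentSubst.WIP
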